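import Fermat.Agent.Golod.Series

/-!
# Golod's nil algebra and torsion group

Sparse relations kill a high power of every element of the augmentation ideal of the free algebra on
two generators over a countable field, while the quotient stays infinite dimensional.
-/

set_option autoImplicit false

noncomputable section

namespace FA.Golod

open Module MonoidAlgebra

variable {F : Type*} [Field F] {d : ℕ}

/-- Elements supported in lengths between `lo` and `hi`. -/
def band (F : Type*) [Field F] (d lo hi : ℕ) : Submodule F (FreeAlg F d) :=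
  Submodule.span F {a | ∃ w : FreeMonoid (Fin d),
    lo ≤ FreeMonoid.length w ∧ FreeMonoid.length w ≤ hi ∧ word w = a}

lemma comp_eq_zero_of_band {lo hi m : ℕ} (h : m < lo ∨ hi < m) {a : FreeAlg F d}
    (ha : a ∈ band F d lo hi) : comp m a = 0 := by
  induction ha using Submodule.span_induction with
  | mem x hx =>
    obtain ⟨w, h1, h2, rfl⟩ := hx
    rw [comp_word, if_neg (by omega)]
  | zero => simp
  | add x y _ _ hx hy => rw [map_add, hx, hy, add_zero]
  | smul t x _ hx => rw [map_smul, hx, smul_zero]

lemma band_mul_le (a b a' b' : ℕ) : band F d a b * band F d a' b' ≤ band F d (a + a') (b + b') := by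
  rw [band, band, Submodule.span_mul_span, Submodule.span_le]
  rintro _ ⟨_, ⟨v, h1, h2, rfl⟩, _, ⟨w, h3, h4, rfl⟩, rfl⟩
  refine Submodule.subset_span ⟨v * w, ?_, ?_, (word_mul v w).symm⟩ <;>
    rw [FreeMonoid.length_mul] <;> omega

lemma pow_mem_band {D : ℕ} {a : FreeAlg F d} (ha : a ∈ band F d 1 D) (N : ℕ) :
    a ^ N ∈ band F d N (N * D) := by
  induction N with
  | zero =>
    rw [pow_zero, ← word_one]
    exact Submodule.subset_span ⟨1, by simp, by simp, rfl⟩
  | succ N ih =>
    rw [pow_succ, Nat.succ_mul]
    exact band_mul_le _ _ _ _ (Submodule.mul_mem_mul ih ha)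

lemma exists_band_of_comp_zero {a : FreeAlg F d} (ha : comp 0 a = 0) :
    ∃ D, a ∈ band F d 1 D := by
  obtain ⟨D, hD⟩ : ∃ D, a - comp 0 a ∈ band F d 1 D := by
    clear ha
    have hmono : ∀ {D D' : ℕ}, D ≤ D' → band F d 1 D ≤ band F d 1 D' := fun h =>
      Submodule.span_mono fun _ ⟨w, h1, h2, e⟩ => ⟨w, h1, h2.trans h, e⟩
    refine word_induction (p := fun a => ∃ D, a - comp 0 a ∈ band F d 1 D) ⟨0, by simp⟩
      (fun w => ?_) ?_ ?_ a
    · refine ⟨FreeMonoid.length w, ?_⟩
      rw [comp_word]
      split
      · simp
      · rw [sub_zero]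
        exact Submodule.subset_span ⟨w, by omega, le_rfl, rfl⟩
    · rintro x y ⟨D, hx⟩ ⟨D', hy⟩
      refine ⟨max D D', ?_⟩
      rw [map_add, add_sub_add_comm]
      exact add_mem (hmono (le_max_left _ _) hx) (hmono (le_max_right _ _) hy)
    · rintro t x ⟨D, hx⟩
      exact ⟨D, by rw [map_smul, ← smul_sub]; exact Submodule.smul_mem _ t hx⟩
  exact ⟨D, by rwa [ha, sub_zero] at hD⟩

variable (r : ℕ → FreeAlg F d)

/-- The two sided ideal with the given graded pieces. -/
def totalIdeal : Ideal (FreeAlg F d) where
  carrier := {a | ∀ n, comp n a ∈ idealPiece r n}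
  add_mem' {a b} ha hb n := by rw [map_add]; exact add_mem (ha n) (hb n)
  zero_mem' n := by simp
  smul_mem' c a ha := by
    refine word_induction (p := fun c => ∀ n, comp n (c * a) ∈ idealPiece r n) (by simp) (fun w => ?_)
      (fun x y hx hy n => by rw [add_mul, map_add]; exact add_mem (hx n) (hy n))
      (fun t x hx n => by rw [smul_mul_assoc, map_smul]; exact Submodule.smul_mem _ t (hx n)) c
    intro n
    have key : comp n (word w * a) =
        if FreeMonoid.length w ≤ n then word w * comp (n - FreeMonoid.length w) a else 0 := by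
      refine word_induction (p := fun a => comp n (word w * a) =
        if FreeMonoid.length w ≤ n then word w * comp (n - FreeMonoid.length w) a else 0)
        (by simp) (fun v => ?_) (fun x y hx hy => by
          rw [mul_add, map_add, hx, hy]; split <;> simp [mul_add]) (fun t x hx => by
          rw [mul_smul_comm, map_smul, hx]; split <;> simp) a
      rw [word_mul, comp_word, comp_word, FreeMonoid.length_mul]
      split_ifs <;> first | omega | simp [word_mul]
    rw [key]
    split
    · rename_i h
      have := piece_mul_idealPiece_le _ _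
        (Submodule.mul_mem_mul (word_mem_piece w) (ha (n - FreeMonoid.length w)))
      rwa [Nat.add_sub_cancel' h] at this
    · exact zero_mem _

lemma mem_totalIdeal {a : FreeAlg F d} : a ∈ totalIdeal r ↔ ∀ n, comp n a ∈ idealPiece r n := Iff.rfl

instance isTwoSided_totalIdeal : (totalIdeal r).IsTwoSided := ⟨fun {a} c ha => by
  refine word_induction (p := fun c => a * c ∈ totalIdeal r) (by simp) (fun w => ?_)
    (fun x y hx hy => by rw [mul_add]; exact add_mem hx hy)
    (fun t x hx => by
      rw [mem_totalIdeal]
      intro n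
      rw [mul_smul_comm, map_smul]
      exact Submodule.smul_mem _ t (hx n)) c
  intro n
  have key : comp n (a * word w) =
      if FreeMonoid.length w ≤ n then comp (n - FreeMonoid.length w) a * word w else 0 := by
    refine word_induction (p := fun a => comp n (a * word w) =
      if FreeMonoid.length w ≤ n then comp (n - FreeMonoid.length w) a * word w else 0)
      (by simp) (fun v => ?_) (fun x y hx hy => by
        rw [add_mul, map_add, hx, hy]; split <;> simp [add_mul]) (fun t x hx => by
        rw [smul_mul_assoc, map_smul, hx]; split <;> simp) a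
    rw [word_mul, comp_word, comp_word, FreeMonoid.length_mul]
    split_ifs <;> first | omega | simp [word_mul]
  rw [key]
  split
  · rename_i h
    have := idealPiece_mul_piece_le _ _
      (Submodule.mul_mem_mul (ha (n - FreeMonoid.length w)) (word_mem_piece w))
    rwa [Nat.sub_add_cancel h] at this
  · exact zero_mem _⟩

/-- Golod's relations for a countable field: sparse, homogeneous, killing a power of every element
without constant term. -/
lemma exists_relations [Countable F] :
    ∃ r : ℕ → FreeAlg F d, (∀ i, r i ∈ piece F d i) ∧ (∀ i, i < 10 → r i = 0) ∧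
      ∀ a : FreeAlg F d, comp 0 a = 0 → ∃ N, a ^ N ∈ totalIdeal r := by
  classical
  have : Countable (FreeMonoid (Fin d)) := FreeMonoid.toList.injective.countable
  have : Countable (FreeAlg F d) := (coeff_injective (R := F) (M := FreeMonoid (Fin d))).countable
  have : Nonempty {a : FreeAlg F d // comp 0 a = 0} := ⟨⟨0, map_zero _⟩⟩
  obtain ⟨e, he⟩ := exists_surjective_nat {a : FreeAlg F d // comp 0 a = 0}
  choose D hD using fun k => exists_band_of_comp_zero (e k).2
  let N : ℕ → ℕ := fun k => Nat.rec (motive := fun _ => ℕ) 10 (fun j x => x * (D j + 1) + 1) k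
  have hN0 : ∀ k, 10 ≤ N k := fun k => by
    induction k with
    | zero => exact le_rfl
    | succ k ih =>
      show 10 ≤ N k * (D k + 1) + 1
      have : N k * 1 ≤ N k * (D k + 1) := Nat.mul_le_mul_left _ (by omega)
      omega
  have hNlt : ∀ j k, j < k → N j * (D j + 1) < N k := by
    intro j k hjk
    induction k with
    | zero => omega
    | succ k ih =>
      show N j * (D j + 1) < N k * (D k + 1) + 1
      rcases (Nat.lt_succ_iff.1 hjk).lt_or_eq with h | rfl
      · have := ih h
        have : N k * 1 ≤ N k * (D k + 1) := Nat.mul_le_mul_left _ (by omega)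
        omega
      · omega
  have huniq : ∀ i j k, N j ≤ i → i ≤ N j * (D j + 1) → N k ≤ i → i ≤ N k * (D k + 1) → j = k :=
    fun i j k h1 h2 h3 h4 => by
      rcases lt_trichotomy j k with h | h | h
      · have := hNlt j k h; omega
      · exact h
      · have := hNlt k j h; omega
  let P : ℕ → Prop := fun i => ∃ k, N k ≤ i ∧ i ≤ N k * (D k + 1)
  have : DecidablePred P := Classical.decPred P
  let r : ℕ → FreeAlg F d := fun i =>
    if h : P i then comp i ((e (Exists.choose h) : FreeAlg F d) ^ N (Exists.choose h)) else 0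
  refine ⟨r, fun i => ?_, fun i hi => ?_, fun a ha => ?_⟩
  · by_cases h : P i
    · rw [show r i = comp i ((e (Exists.choose h) : FreeAlg F d) ^ N (Exists.choose h)) from dif_pos h]
      exact comp_mem_piece i _
    · rw [show r i = 0 from dif_neg h]
      exact zero_mem _
  · refine dif_neg ?_
    rintro ⟨k, hk, -⟩
    have := hN0 k
    omega
  · obtain ⟨k, hk⟩ := he ⟨a, ha⟩
    refine ⟨N k, fun i => ?_⟩
    have hband : a ^ N k ∈ band F d (N k) (N k * D k) := by
      have := pow_mem_band (hD k) (N k)
      rwa [hk] at this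
    rcases em (N k ≤ i ∧ i ≤ N k * D k) with hi | hi
    · have h : ∃ k, N k ≤ i ∧ i ≤ N k * (D k + 1) :=
        ⟨k, hi.1, hi.2.trans (Nat.mul_le_mul_left _ (by omega))⟩
      have hc : Exists.choose h = k := huniq i _ _ (Exists.choose_spec h).1 (Exists.choose_spec h).2 hi.1
        (hi.2.trans (Nat.mul_le_mul_left _ (by omega)))
      have hr : r i = comp i (a ^ N k) := by
        rw [show r i = comp i ((e (Exists.choose h) : FreeAlg F d) ^ N (Exists.choose h)) from dif_pos h,
          hc, hk]
      rw [← hr]
      exact relation_mem (by have := hN0 k; omega)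
    · rw [comp_eq_zero_of_band (by omega) hband]
      exact zero_mem _

/-- Golod's algebra: infinite dimensional, two generators, nil. -/
theorem exists_nil_algebra (F : Type) [Field F] [Countable F] :
    ∃ (B : Type) (_ : Ring B) (_ : Algebra F B) (x y : B), Algebra.adjoin F {x, y} = ⊤ ∧
      (∀ a ∈ NonUnitalAlgebra.adjoin F ({x, y} : Set B), IsNilpotent a) ∧
        ¬ FiniteDimensional F B := by
  classical
  obtain ⟨r, hr, hlow, hnil⟩ := exists_relations (F := F) (d := 2)
  let π : FreeAlg F 2 →ₐ[F] FreeAlg F 2 ⧸ totalIdeal r := Ideal.Quotient.mkₐ F (totalIdeal r)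
  have hπ : Function.Surjective π := Ideal.Quotient.mk_surjective
  let T : Fin 2 → FreeAlg F 2 := fun j => word (FreeMonoid.of j)
  refine ⟨FreeAlg F 2 ⧸ totalIdeal r, inferInstance, inferInstance, π (T 0), π (T 1), ?_, ?_, ?_⟩
  · rw [eq_top_iff]
    intro b _
    obtain ⟨a, rfl⟩ := hπ b
    refine word_induction (p := fun a => π a ∈ Algebra.adjoin F {π (T 0), π (T 1)}) (by simp) ?_
      (fun x y hx hy => by rw [map_add]; exact add_mem hx hy)
      (fun t x hx => by rw [map_smul]; exact Subalgebra.smul_mem _ hx t) a
    intro w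
    induction w using FreeMonoid.inductionOn' with
    | one => rw [word_one, map_one]; exact one_mem _
    | of_mul j v hv =>
      rw [← word_mul, map_mul]
      refine mul_mem (Algebra.subset_adjoin ?_) hv
      fin_cases j <;> simp [T]
  · intro b hb
    let S : NonUnitalSubalgebra F (FreeAlg F 2 ⧸ totalIdeal r) :=
      { carrier := {b | ∃ a, comp 0 a = 0 ∧ π a = b}
        add_mem' := by
          rintro _ _ ⟨x, hx, rfl⟩ ⟨y, hy, rfl⟩
          exact ⟨x + y, by rw [map_add, hx, hy, add_zero], map_add π x y⟩
        zero_mem' := ⟨0, map_zero _, map_zero π⟩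
        mul_mem' := by
          rintro _ _ ⟨x, hx, rfl⟩ ⟨y, hy, rfl⟩
          obtain ⟨D, hD⟩ := exists_band_of_comp_zero hx
          obtain ⟨D', hD'⟩ := exists_band_of_comp_zero hy
          exact ⟨x * y, comp_eq_zero_of_band (Or.inl (by norm_num))
            (band_mul_le _ _ _ _ (Submodule.mul_mem_mul hD hD')), map_mul π x y⟩
        smul_mem' := by
          rintro t _ ⟨x, hx, rfl⟩
          exact ⟨t • x, by rw [map_smul, hx, smul_zero], map_smul π t x⟩ }
    have hle : NonUnitalAlgebra.adjoin F {π (T 0), π (T 1)} ≤ S := by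
      refine NonUnitalAlgebra.adjoin_le ?_
      rintro _ (rfl | rfl) <;> exact ⟨_, by simp [T, comp_word], rfl⟩
    obtain ⟨a, ha, rfl⟩ := hle hb
    obtain ⟨N, hN⟩ := hnil a ha
    exact ⟨N, by rw [← map_pow]; exact Ideal.Quotient.eq_zero_iff_mem.2 hN⟩
  · intro hfin
    have hc : ∀ n, ∃ c ∈ piece F 2 n, c ∉ idealPiece r n := by
      intro n
      by_contra h
      push Not at h
      have heq : idealPiece r n = piece F 2 n := le_antisymm (idealPiece_le hr n) h
      have := codim_pos hr hlow n
      rw [codim, heq, finrank_piece] at this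
      omega
    choose c hc1 hc2 using hc
    have hli : LinearIndependent F fun n => π (c n) := by
      rw [linearIndependent_iff']
      intro s g hg n hn
      have hmem : ∑ i ∈ s, g i • c i ∈ totalIdeal r := by
        rw [← Ideal.Quotient.eq_zero_iff_mem]
        show π _ = 0
        simpa [map_sum, map_smul] using hg
      have := hmem n
      rw [map_sum, Finset.sum_eq_single n] at this
      · rw [map_smul, comp_of_mem (hc1 n), if_pos rfl] at this
        by_contra h
        exact hc2 n ((Submodule.smul_mem_iff _ h).1 this)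
      · intro i _ hi
        rw [map_smul, comp_of_mem (hc1 i), if_neg (Ne.symm hi), smul_zero]
      · intro h; exact absurd hn h
    exact Module.Finite.not_linearIndependent_of_infinite _ hli

/-- Golod's group: infinite, two generators, every element of `p`-power order. -/
theorem exists_torsion_group (p : ℕ) [hp : Fact p.Prime] :
    ∃ (G : Type) (_ : Group G) (g h : G), Subgroup.closure {g, h} = ⊤ ∧ Infinite G ∧
      ∀ u : G, ∃ k : ℕ, u ^ p ^ k = 1 := by
  classical
  obtain ⟨B, _, _, x, y, hgen, hnil, hinf⟩ := exists_nil_algebra (ZMod p)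
  set N := NonUnitalAlgebra.adjoin (ZMod p) ({x, y} : Set B)
  have : Nontrivial B := by
    by_contra h
    rw [not_nontrivial_iff_subsingleton] at h
    exact hinf inferInstance
  have : CharP B p := charP_of_injective_algebraMap (algebraMap (ZMod p) B).injective p
  have hx : x ∈ N := NonUnitalAlgebra.subset_adjoin _ (by simp)
  have hy : y ∈ N := NonUnitalAlgebra.subset_adjoin _ (by simp)
  let ux := (hnil x hx).isUnit_one_add.unit
  let uy := (hnil y hy).isUnit_one_add.unit
  set G₀ := Subgroup.closure ({ux, uy} : Set Bˣ)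
  have htors : ∀ a ∈ N, ∃ k, (1 + a) ^ p ^ k = 1 := fun a ha => by
    obtain ⟨m, hm⟩ := hnil a ha
    refine ⟨m, ?_⟩
    rw [add_pow_char_pow_of_commute (p := p) (h := Commute.one_left a), one_pow,
      pow_eq_zero_of_le (Nat.lt_pow_self hp.out.one_lt).le hm, add_zero]
  have hmul : ∀ u v : B, u - 1 ∈ N → v - 1 ∈ N → u * v - 1 ∈ N := fun u v hu hv => by
    have := add_mem (add_mem (mul_mem hu hv) hu) hv
    convert this using 1
    noncomm_ring
  have hG : ∀ u ∈ G₀, (u : B) - 1 ∈ N := by
    intro u hu
    induction hu using Subgroup.closure_induction with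
    | mem u hu =>
      rcases hu with rfl | rfl
      · simpa [ux] using hx
      · simpa [uy] using hy
    | one => simp
    | mul u v _ _ hu hv => rw [Units.val_mul]; exact hmul _ _ hu hv
    | inv u _ hu =>
      obtain ⟨k, hk⟩ := htors _ hu
      rw [add_sub_cancel] at hk
      obtain ⟨m, hm⟩ : ∃ m, p ^ k = m + 1 :=
        ⟨p ^ k - 1, by have := hp.out.pos; have : 0 < p ^ k := pow_pos this k; omega⟩
      have hinv : (u⁻¹ : Bˣ) = u ^ m := inv_eq_of_mul_eq_one_left (Units.ext (by
        rw [← pow_succ, ← hm, Units.val_pow_eq_pow_val, hk, Units.val_one]))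
      rw [hinv, Units.val_pow_eq_pow_val]
      clear hinv hm
      induction m with
      | zero => simp
      | succ m ihm => rw [pow_succ]; exact hmul _ _ ihm hu
  refine ⟨G₀, inferInstance, ⟨ux, Subgroup.subset_closure (by simp)⟩,
    ⟨uy, Subgroup.subset_closure (by simp)⟩, ?_, ?_, fun u => ?_⟩
  · refine le_antisymm le_top ?_
    rw [← Subgroup.closure_closure_coe_preimage (k := ({ux, uy} : Set Bˣ))]
    refine Subgroup.closure_mono ?_
    rintro u (hu | hu)
    · exact Or.inl (Subtype.ext hu)
    · exact Or.inr (Subtype.ext hu)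
  · by_contra hG₀
    rw [not_infinite_iff_finite] at hG₀
    apply hinf
    let s : Set B := Set.range fun u : G₀ => ((u : Bˣ) : B)
    let A : Subalgebra (ZMod p) B :=
      (Submodule.span (ZMod p) s).toSubalgebra
        (Submodule.subset_span ⟨1, rfl⟩) fun a b ha hb => by
        have := Submodule.mul_mem_mul ha hb
        rw [Submodule.span_mul_span] at this
        refine Submodule.span_mono ?_ this
        rintro _ ⟨_, ⟨u, rfl⟩, _, ⟨v, rfl⟩, rfl⟩
        exact ⟨u * v, rfl⟩
    have htop : A = ⊤ := by
      rw [eq_top_iff, ← hgen]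
      refine Algebra.adjoin_le ?_
      have h1 : (1 : B) ∈ A := one_mem A
      rintro _ (rfl | rfl)
      · have hu : (ux : B) ∈ A :=
          Submodule.subset_span ⟨⟨ux, Subgroup.subset_closure (by simp)⟩, rfl⟩
        simpa [ux] using sub_mem hu h1
      · have hu : (uy : B) ∈ A :=
          Submodule.subset_span ⟨⟨uy, Subgroup.subset_closure (by simp)⟩, rfl⟩
        simpa [uy] using sub_mem hu h1
    have hspan : Submodule.span (ZMod p) s = ⊤ := congrArg Subalgebra.toSubmodule htop
    exact Module.finite_def.2 (hspan ▸ Submodule.fg_span (Set.finite_range _))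
  · obtain ⟨k, hk⟩ := htors _ (hG u u.2)
    rw [add_sub_cancel] at hk
    exact ⟨k, Subtype.ext (Units.ext (by simpa using hk))⟩

end FA.Golod
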