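import Mathlib

/-!
# The inequality of Golod and Shafarevich for graded algebras

The free algebra on `d` generators modulo one homogeneous relation in each degree: the graded pieces
of the ideal and the recursive bound on their codimensions.
-/

set_option autoImplicit false

noncomputable section

namespace FA.Golod

open Module MonoidAlgebra

variable {F : Type*} [Field F] {d : ℕ}

/-- The free algebra on `d` letters. -/
abbrev FreeAlg (F : Type*) [Field F] (d : ℕ) := MonoidAlgebra F (FreeMonoid (Fin d))

/-- The basis element of a word. -/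
def word (w : FreeMonoid (Fin d)) : FreeAlg F d := MonoidAlgebra.single w 1

lemma word_mul (v w : FreeMonoid (Fin d)) : word (F := F) v * word w = word (v * w) := by
  simp [word]

lemma word_one : word (F := F) (1 : FreeMonoid (Fin d)) = 1 := rfl

/-- The span of words of length `n`. -/
def piece (F : Type*) [Field F] (d n : ℕ) : Submodule F (FreeAlg F d) :=
  Submodule.span F {a | ∃ w : FreeMonoid (Fin d), FreeMonoid.length w = n ∧ word w = a}

lemma word_mem_piece (w : FreeMonoid (Fin d)) : word w ∈ piece F d (FreeMonoid.length w) :=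
  Submodule.subset_span ⟨w, rfl, rfl⟩

lemma piece_mul_le (m n : ℕ) : piece F d m * piece F d n ≤ piece F d (m + n) := by
  rw [piece, piece, Submodule.span_mul_span, Submodule.span_le]
  rintro _ ⟨_, ⟨v, rfl, rfl⟩, _, ⟨w, rfl, rfl⟩, rfl⟩
  show word v * word w ∈ piece F d _
  rw [word_mul, ← FreeMonoid.length_mul]
  exact word_mem_piece _

lemma piece_zero : piece F d 0 = 1 := by
  rw [piece, Submodule.one_eq_span]
  congr 1
  ext a
  simp only [Set.mem_ofPred_eq, FreeMonoid.length_eq_zero, Set.mem_singleton_iff]
  exact ⟨fun ⟨w, hw, e⟩ => by rw [← e, hw, word_one], fun e => ⟨1, rfl, by rw [e, word_one]⟩⟩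

lemma piece_succ (n : ℕ) : piece F d (n + 1) = piece F d n * piece F d 1 := by
  refine le_antisymm ?_ (piece_mul_le n 1)
  rw [piece, Submodule.span_le]
  rintro _ ⟨w, hw, rfl⟩
  obtain ⟨l, rfl⟩ := FreeMonoid.ofList.surjective w
  have hl : l.length = n + 1 := hw
  obtain ⟨u, j, rfl⟩ : ∃ u j, l = u ++ [j] := by
    have hne : l ≠ [] := by rintro rfl; simp at hl
    exact ⟨_, _, (List.dropLast_append_getLast hne).symm⟩
  rw [FreeMonoid.ofList_append, ← word_mul]
  refine Submodule.mul_mem_mul ?_ (word_mem_piece (FreeMonoid.ofList [j]))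
  have : u.length = n := by simpa using hl
  rw [← this]
  exact word_mem_piece (FreeMonoid.ofList u)

lemma piece_succ' (n : ℕ) : piece F d (n + 1) = piece F d 1 * piece F d n := by
  induction n with
  | zero => rw [piece_zero, mul_one]
  | succ n ih => conv_lhs => rw [piece_succ, ih, mul_assoc, ← piece_succ]

/-- The coefficients as a linear equivalence. -/
def coeffL : FreeAlg F d ≃ₗ[F] (FreeMonoid (Fin d) →₀ F) :=
  { coeffEquiv with
    map_add' := fun a b => coeff_add a b
    map_smul' := fun r a => coeff_smul r a }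

lemma coeffL_apply (a : FreeAlg F d) : coeffL a = a.coeff := rfl

lemma linearIndependent_word : LinearIndependent F (word (F := F) (d := d)) :=
  LinearIndependent.of_comp (coeffL (F := F) (d := d)).toLinearMap
    (by exact Finsupp.linearIndependent_single_one F (FreeMonoid (Fin d)))

lemma finrank_piece (n : ℕ) : finrank F (piece F d n) = d ^ n := by
  let e : (Fin n → Fin d) → FreeMonoid (Fin d) := fun f => FreeMonoid.ofList (List.ofFn f)
  have he : Function.Injective e := FreeMonoid.ofList.injective.comp List.ofFn_injective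
  have hset : {a | ∃ w : FreeMonoid (Fin d), FreeMonoid.length w = n ∧ word w = a} =
      Set.range (word (F := F) ∘ e) := by
    ext a
    constructor
    · rintro ⟨w, rfl, rfl⟩
      exact ⟨(FreeMonoid.toList w).get, congrArg word
        ((congrArg FreeMonoid.ofList (List.ofFn_get _)).trans (FreeMonoid.ofList_toList w))⟩
    · rintro ⟨f, rfl⟩
      exact ⟨e f, List.length_ofFn, rfl⟩
  rw [piece, hset, finrank_span_eq_card (linearIndependent_word.comp e he)]
  simp

instance finite_piece (n : ℕ) : FiniteDimensional F (piece F d n) := by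
  rcases Nat.eq_zero_or_pos (d ^ n) with h | h
  · have hn : n ≠ 0 := by rintro rfl; simp at h
    have hd : d = 0 := by simpa [hn] using h
    subst hd
    refine Module.Finite.iff_fg.2 (Submodule.fg_span ?_)
    exact (Set.finite_singleton (word 1)).subset fun a ⟨w, _, e⟩ => by
      rw [← e, show w = 1 from FreeMonoid.toList.injective
        (List.eq_nil_iff_forall_not_mem.2 fun x _ => x.elim0)]
      rfl
  · exact FiniteDimensional.of_finrank_pos (finrank_piece (F := F) (d := d) n ▸ h)

/-- The degree `n` component. -/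
def comp (n : ℕ) : FreeAlg F d →ₗ[F] FreeAlg F d :=
  coeffL.symm.toLinearMap ∘ₗ
    Finsupp.linearCombination F (fun w : FreeMonoid (Fin d) =>
      if FreeMonoid.length w = n then Finsupp.single w (1 : F) else 0) ∘ₗ coeffL.toLinearMap

lemma comp_word (n : ℕ) (w : FreeMonoid (Fin d)) :
    comp n (word (F := F) w) = if FreeMonoid.length w = n then word w else 0 := by
  simp only [comp, LinearMap.comp_apply, LinearEquiv.coe_coe, coeffL_apply, word, coeff_single,
    Finsupp.linearCombination_single, one_smul]
  split <;> rfl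

lemma comp_of_mem {n : ℕ} {a : FreeAlg F d} (ha : a ∈ piece F d n) (m : ℕ) :
    comp m a = if m = n then a else 0 := by
  induction ha using Submodule.span_induction with
  | mem x hx =>
    obtain ⟨w, rfl, rfl⟩ := hx
    rw [comp_word]
    simp only [eq_comm]
  | zero => simp
  | add x y _ _ hx hy => rw [map_add, hx, hy]; split <;> simp
  | smul t x _ hx => rw [map_smul, hx]; split <;> simp

lemma word_induction {p : FreeAlg F d → Prop} (h0 : p 0) (hw : ∀ w, p (word w))
    (hadd : ∀ a b, p a → p b → p (a + b)) (hsmul : ∀ (r : F) a, p a → p (r • a))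
    (a : FreeAlg F d) : p a := by
  induction a using MonoidAlgebra.induction_linear with
  | zero => exact h0
  | add x y hx hy => exact hadd x y hx hy
  | single w r =>
    rw [show MonoidAlgebra.single w r = r • word (F := F) w by simp [word]]
    exact hsmul r _ (hw w)

lemma comp_mem_piece (n : ℕ) (a : FreeAlg F d) : comp n a ∈ piece F d n := by
  refine word_induction (p := fun a => comp n a ∈ piece F d n) (by simp) (fun w => ?_)
    (fun a b ha hb => by rw [map_add]; exact add_mem ha hb)
    (fun r a ha => by rw [map_smul]; exact Submodule.smul_mem _ r ha) a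
  rw [comp_word]
  split
  · rename_i h; rw [← h]; exact word_mem_piece w
  · exact zero_mem _

/-- The graded pieces of the ideal generated by the relations `r i` of degree `i`. -/
def idealPiece (r : ℕ → FreeAlg F d) : ℕ → Submodule F (FreeAlg F d)
  | 0 => ⊥
  | n + 1 => idealPiece r n * piece F d 1 ⊔
      ⨆ i : Fin (n + 2), piece F d (n + 1 - i) * Submodule.span F {r i}

variable {r : ℕ → FreeAlg F d}

lemma idealPiece_mul_le (n : ℕ) : idealPiece r n * piece F d 1 ≤ idealPiece r (n + 1) := le_sup_left

lemma mul_relation_le {n i : ℕ} (hi : i ≤ n + 1) :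
    piece F d (n + 1 - i) * Submodule.span F {r i} ≤ idealPiece r (n + 1) :=
  le_sup_of_le_right
    (le_iSup (fun i : Fin (n + 2) => piece F d (n + 1 - i) * Submodule.span F {r i})
      ⟨i, by omega⟩)

lemma idealPiece_le (hr : ∀ i, r i ∈ piece F d i) (n : ℕ) : idealPiece r n ≤ piece F d n := by
  induction n with
  | zero => exact bot_le
  | succ n ih =>
    refine sup_le ((mul_le_mul' ih le_rfl).trans (piece_mul_le n 1)) (iSup_le fun i => ?_)
    refine (mul_le_mul' le_rfl ((Submodule.span_singleton_le_iff_mem _ _).2 (hr i))).trans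
      ((piece_mul_le _ _).trans ?_)
    rw [Nat.sub_add_cancel (by omega)]

lemma piece_one_mul_le (n : ℕ) : piece F d 1 * idealPiece r n ≤ idealPiece r (n + 1) := by
  induction n with
  | zero => simp [idealPiece]
  | succ n ih =>
    rw [idealPiece, Submodule.mul_sup, Submodule.mul_iSup]
    refine sup_le ?_ (iSup_le fun i => ?_)
    · rw [← mul_assoc]
      exact (mul_le_mul' ih le_rfl).trans (idealPiece_mul_le _)
    · rw [← mul_assoc, ← piece_succ', show n + 1 - (i : ℕ) + 1 = n + 1 + 1 - i by omega]
      exact mul_relation_le (by omega)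

lemma piece_mul_idealPiece_le (k n : ℕ) : piece F d k * idealPiece r n ≤ idealPiece r (k + n) := by
  induction k generalizing n with
  | zero => simp [piece_zero]
  | succ k ih =>
    rw [piece_succ, mul_assoc]
    exact (mul_le_mul' le_rfl (piece_one_mul_le n)).trans ((ih (n + 1)).trans_eq (by ring_nf))

lemma idealPiece_mul_piece_le (n k : ℕ) : idealPiece r n * piece F d k ≤ idealPiece r (n + k) := by
  induction k with
  | zero => simp [piece_zero]
  | succ k ih =>
    rw [piece_succ, ← mul_assoc]
    exact (mul_le_mul' ih le_rfl).trans (idealPiece_mul_le _)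

lemma relation_mem {n : ℕ} (hn : 1 ≤ n) : r n ∈ idealPiece r n := by
  obtain ⟨m, rfl⟩ : ∃ m, n = m + 1 := ⟨n - 1, by omega⟩
  refine mul_relation_le (r := r) le_rfl ?_
  rw [Nat.sub_self, piece_zero, one_mul]
  exact Submodule.mem_span_singleton_self _

/-- The codimension of a graded piece of the ideal. -/
def codim (r : ℕ → FreeAlg F d) (n : ℕ) : ℕ :=
  d ^ n - finrank F (idealPiece r n)

lemma finite_idealPiece (hr : ∀ i, r i ∈ piece F d i) (n : ℕ) :
    FiniteDimensional F (idealPiece r n) :=
  Submodule.finiteDimensional_of_le (idealPiece_le hr n)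

lemma finrank_idealPiece_le (hr : ∀ i, r i ∈ piece F d i) (n : ℕ) :
    finrank F (idealPiece r n) ≤ d ^ n :=
  (Submodule.finrank_mono (idealPiece_le hr n)).trans (finrank_piece n).le

lemma exists_complement (hr : ∀ i, r i ∈ piece F d i) (m : ℕ) :
    ∃ C : Submodule F (FreeAlg F d), C ≤ piece F d m ∧ piece F d m ≤ C ⊔ idealPiece r m ∧
      finrank F C = codim r m := by
  have := finite_idealPiece hr m
  obtain ⟨C', hC'⟩ := Submodule.exists_isCompl (idealPiece r m)
  refine ⟨C' ⊓ piece F d m, inf_le_right, ?_, ?_⟩
  · rw [sup_comm, ← sup_inf_assoc_of_le _ (idealPiece_le hr m), hC'.sup_eq_top, top_inf_eq]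
  · have h1 := Submodule.finrank_sup_add_finrank_inf_eq (idealPiece r m) (C' ⊓ piece F d m)
    rw [← inf_assoc, hC'.inf_eq_bot, bot_inf_eq, finrank_bot,
      ← sup_inf_assoc_of_le _ (idealPiece_le hr m), hC'.sup_eq_top, top_inf_eq, finrank_piece] at h1
    rw [codim]
    omega

/-- The inequality of Golod and Shafarevich. -/
theorem codim_succ_ge (hr : ∀ i, r i ∈ piece F d i) (hr0 : r 0 = 0) (s : ℕ → ℕ)
    (hs : ∀ i, r i ≠ 0 → 1 ≤ s i) (n : ℕ) :
    d * codim r n ≤ codim r (n + 1) + ∑ i ∈ Finset.range (n + 2), s i * codim r (n + 1 - i) := by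
  classical
  choose C hCle hCsup hCdim using exists_complement (r := r) hr
  have := finite_idealPiece hr n
  have hCfin : ∀ m, FiniteDimensional F (C m) := fun m => Submodule.finiteDimensional_of_le (hCle m)
  let S := Finset.univ.filter fun i : Fin (n + 2) => r i ≠ 0
  let f : ((Fin d → idealPiece r n) × (∀ i : S, C (n + 1 - (i.1 : ℕ)))) →ₗ[F] FreeAlg F d :=
    LinearMap.coprod
      (∑ j : Fin d, LinearMap.mulRight F (word (FreeMonoid.of j)) ∘ₗ
        (idealPiece r n).subtype ∘ₗ LinearMap.proj j)
      (∑ i : S, LinearMap.mulRight F (r (i.1 : ℕ)) ∘ₗ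
        (C (n + 1 - (i.1 : ℕ))).subtype ∘ₗ LinearMap.proj i)
  have hL : idealPiece r n * piece F d 1 ≤ LinearMap.range f := by
    rw [Submodule.mul_le]
    intro a ha b hb
    induction hb using Submodule.span_induction with
    | mem x hx =>
      obtain ⟨w, hw, rfl⟩ := hx
      obtain ⟨j, rfl⟩ := FreeMonoid.length_eq_one.1 hw
      refine ⟨(Pi.single j ⟨a, ha⟩, 0), ?_⟩
      simp [f, LinearMap.sum_apply, Pi.single_apply, apply_ite]
    | zero => simp
    | add x y _ _ hx hy => rw [mul_add]; exact add_mem hx hy
    | smul t x _ hx => rw [mul_smul_comm]; exact Submodule.smul_mem _ t hx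
  have hle : idealPiece r (n + 1) ≤ LinearMap.range f := by
    refine sup_le hL (iSup_le fun i => ?_)
    by_cases hi : r i = 0
    · simp [hi]
    have hi1 : 1 ≤ (i : ℕ) := Nat.one_le_iff_ne_zero.2 fun e => hi (by rw [e]; exact hr0)
    refine (mul_le_mul' (hCsup _) le_rfl).trans ?_
    rw [Submodule.sup_mul]
    refine sup_le ?_ ?_
    · rw [Submodule.mul_le]
      intro a ha b hb
      obtain ⟨t, rfl⟩ := Submodule.mem_span_singleton.1 hb
      rw [mul_smul_comm]
      refine Submodule.smul_mem _ t ⟨(0, Pi.single ⟨i, by simp [S, hi]⟩ ⟨a, ha⟩), ?_⟩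
      simp [f, LinearMap.sum_apply]
      rw [Finset.sum_eq_single (⟨i, by simp [S, hi]⟩ : S)
        (fun x _ hx => by simp [Pi.single_eq_of_ne hx]) (by simp)]
      simp
    · refine le_trans ?_ hL
      refine (mul_le_mul' le_rfl ((Submodule.span_singleton_le_iff_mem _ _).2 (hr i))).trans ?_
      obtain ⟨k, hk⟩ : ∃ k, (i : ℕ) = k + 1 := ⟨(i : ℕ) - 1, by omega⟩
      rw [hk, piece_succ, ← mul_assoc]
      refine mul_le_mul' ((idealPiece_mul_piece_le _ _).trans_eq ?_) le_rfl
      congr 1
      omega
  have h1 : finrank F (idealPiece r (n + 1)) ≤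
      d * finrank F (idealPiece r n) + ∑ i : S, codim r (n + 1 - (i.1 : ℕ)) := by
    refine (Submodule.finrank_mono hle).trans ((LinearMap.finrank_range_le f).trans ?_)
    rw [Module.finrank_prod, Module.finrank_pi_fintype, Module.finrank_pi_fintype]
    simp [hCdim]
  have h2 : ∑ i : S, codim r (n + 1 - (i.1 : ℕ)) ≤
      ∑ i ∈ Finset.range (n + 2), s i * codim r (n + 1 - i) := by
    rw [Finset.sum_coe_sort S fun i : Fin (n + 2) => codim r (n + 1 - (i : ℕ)),
      ← Fin.sum_univ_eq_sum_range fun i => s i * codim r (n + 1 - i)]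
    refine le_trans (Finset.sum_le_sum fun i hi => Nat.le_mul_of_pos_left _ (hs i ?_))
      (Finset.sum_le_sum_of_subset (Finset.subset_univ S))
    simpa [S] using hi
  have h3 : d * codim r n = d ^ (n + 1) - d * finrank F (idealPiece r n) := by
    rw [codim, Nat.mul_sub, pow_succ']
  have h4 := finrank_idealPiece_le hr (n + 1)
  have h5 : codim r (n + 1) = d ^ (n + 1) - finrank F (idealPiece r (n + 1)) := rfl
  omega

/-- With sparse relations the codimensions grow geometrically. -/
theorem codim_growth {r : ℕ → FreeAlg F 2} (hr : ∀ i, r i ∈ piece F 2 i)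
    (hlow : ∀ i, i < 10 → r i = 0) (n : ℕ) : 3 * codim r n ≤ 2 * codim r (n + 1) := by
  induction n using Nat.strong_induction_on with
  | _ n ih =>
    have h := codim_succ_ge hr (hlow 0 (by norm_num)) (fun i => if i < 10 then 0 else 1)
      (fun i hi => by
        rw [if_neg fun h => hi (hlow i h)]) n
    have hsum : ∀ m, m < n → ∑ j ∈ Finset.range (m + 1), codim r j ≤ 3 * codim r m := by
      intro m hm
      induction m with
      | zero => rw [Finset.sum_range_one]; omega
      | succ m ihm =>
        rw [Finset.sum_range_succ]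
        have := ihm (by omega)
        have := ih m (by omega)
        omega
    have hpow : ∀ k m, m + k ≤ n → 3 ^ k * codim r m ≤ 2 ^ k * codim r (m + k) := by
      intro k
      induction k with
      | zero => intro m _; simp
      | succ k ihk =>
        intro m hm
        have h1 := ihk m (by omega)
        have h2 := ih (m + k) (by omega)
        calc 3 ^ (k + 1) * codim r m = 3 * (3 ^ k * codim r m) := by ring
          _ ≤ 3 * (2 ^ k * codim r (m + k)) := by omega
          _ = 2 ^ k * (3 * codim r (m + k)) := by ring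
          _ ≤ 2 ^ k * (2 * codim r (m + k + 1)) := Nat.mul_le_mul_left _ h2
          _ = 2 ^ (k + 1) * codim r (m + (k + 1)) := by ring_nf
    rcases Nat.lt_or_ge n 9 with hn | hn
    · rw [Finset.sum_eq_zero fun i hi => by
        rw [if_pos (by have := Finset.mem_range.1 hi; omega), zero_mul]] at h
      omega
    obtain ⟨m, rfl⟩ : ∃ m, n = m + 9 := ⟨n - 9, by omega⟩
    have h2 : ∑ i ∈ Finset.range (m + 9 + 2),
        (if i < 10 then 0 else 1) * codim r (m + 9 + 1 - i) ≤ 3 * codim r m := by
      refine le_trans ?_ (hsum m (by omega))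
      rw [← Finset.sum_range_reflect]
      refine le_of_le_of_eq (le_of_eq ?_) (Finset.sum_congr rfl fun j _ => rfl)
      rw [show m + 9 + 2 = (m + 1) + 10 by omega, Finset.sum_range_add]
      rw [Finset.sum_eq_zero (s := Finset.range 10) fun x hx => by
        rw [if_pos (by have := Finset.mem_range.1 hx; omega), zero_mul], add_zero]
      refine Finset.sum_congr rfl fun j hj => ?_
      have := Finset.mem_range.1 hj
      rw [if_neg (by omega), one_mul]
      congr 1
      omega
    have h9 := hpow 9 m (by omega)
    norm_num at h9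
    omega

lemma codim_pos {r : ℕ → FreeAlg F 2} (hr : ∀ i, r i ∈ piece F 2 i)
    (hlow : ∀ i, i < 10 → r i = 0) (n : ℕ) : 0 < codim r n := by
  induction n with
  | zero => rw [codim, idealPiece, finrank_bot]; simp
  | succ n ih => have := codim_growth hr hlow n; omega

end FA.Golod
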